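import Mathlib
import Fermat.Agent.Jac.DictCore15
import Fermat.Agent.Jac.BridgeSheaf33ThetaB
import Fermat.Agent.Jac.BaseChange75.Square

/-!
# JAC brick B1b, field `baseChange` of the affine dictionary: the algebra  (helper75)

For `k`-algebras `A → A'` (`[Algebra A A'] [IsScalarTower k A A']`, `ψ := IsScalarTower.toAlgHom`),
`f := bcs c ψ : C_{A'} ⟶ C_A`, `M` on `C_A`, `M' := f^* M`:

* `algGb0/1/01` : the section rings of `C_{A'}` as algebras over those of `C_A`, through helper33's
  `gb0/gb1/gb01` (`= f.appLE X_i(A) X_i(A')`); reducible defs, activate with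
  `attribute [local instance]` / `letI`.
* `corr_baseChange` : **the `baseChange` field for `DictCore15.Corr`, given the sheaf-side input**
  (brick M4b, helper70): the two-chart module of sections of `M'` is a base change
  (`JSmooth85Alg.LiftData` along the `gb` cube) of the two-chart module of sections of `M`.
  Proof: `BaseChange75.LiftData.ofSquare` in the commutative square of ring cubes

      A ⊗ B_i   --theta_i(A)-->   Γ(C_A, X_i)
        |                            |
      algLeft                       gb_i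
        v                            v
      A' ⊗ B_i  --theta_i(A')-->  Γ(C_{A'}, X_i)
-/

set_option autoImplicit false
set_option linter.style.haveILetI false
set_option linter.unusedSectionVars false

open CategoryTheory CategoryTheory.Limits AlgebraicGeometry TopologicalSpace Opposite
open NeronModelInfra AlgebraicGeometry.RelPicard TensorProduct

universe u

noncomputable section

namespace Fermat.Agent.Jac.DictBC75

open scoped Fermat.Agent.Jac.BaseChange75 Fermat.Agent.Jac.DictCore15
open Fermat.Agent.Jac.TwoCoverGammaSetting Fermat.Agent.Jac.BridgeCharts33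
open Fermat.Agent.Jac.JSmooth85Alg Fermat.Agent.Jac.BaseChange75 Fermat.Agent.Jac.DictCore15

variable {k : Type u} [Field k] {C : Scheme.{u}} {c : C ⟶ Spec (CommRingCat.of k)}
  {ε : SchemeHomOver (𝟙 (Spec (CommRingCat.of k))) c}
variable (cc : CurveCharts c ε) (A A' : Type u) [CommRing A] [Algebra k A] [CommRing A']
  [Algebra k A'] [Algebra A A'] [IsScalarTower k A A']

/-- `Γ(C_{A'}, X0)` as an algebra over `Γ(C_A, X0)` through `gb0` (pull-back of functions along
`bcs c ψ`). -/
@[instance_reducible]
def algGb0 : Algebra (coverA cc A).R0 (coverA cc A').R0 :=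
  (gb0 cc (IsScalarTower.toAlgHom k A A')).toAlgebra

/-- `Γ(C_{A'}, X1)` as an algebra over `Γ(C_A, X1)` through `gb1`. -/
@[instance_reducible]
def algGb1 : Algebra (coverA cc A).R1 (coverA cc A').R1 :=
  (gb1 cc (IsScalarTower.toAlgHom k A A')).toAlgebra

/-- `Γ(C_{A'}, X0 ⊓ X1)` as an algebra over `Γ(C_A, X0 ⊓ X1)` through `gb01`. -/
@[instance_reducible]
def algGb01 : Algebra (coverA cc A).R01 (coverA cc A').R01 :=
  (gb01 cc (IsScalarTower.toAlgHom k A A')).toAlgebra

attribute [local instance] algGb0 algGb1 algGb01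

theorem algebraMap_gb0 (x : (coverA cc A).R0) :
    algebraMap (coverA cc A).R0 (coverA cc A').R0 x = gb0 cc (IsScalarTower.toAlgHom k A A') x :=
  rfl

theorem algebraMap_gb1 (x : (coverA cc A).R1) :
    algebraMap (coverA cc A).R1 (coverA cc A').R1 x = gb1 cc (IsScalarTower.toAlgHom k A A') x :=
  rfl

theorem algebraMap_gb01 (x : (coverA cc A).R01) :
    algebraMap (coverA cc A).R01 (coverA cc A').R01 x =
      gb01 cc (IsScalarTower.toAlgHom k A A') x :=
  rfl

/-- The diagonal `A ⊗[k] B0 → Γ(C_{A'}, X0)` of the square. -/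
@[instance_reducible]
def algDiag0 : Algebra (A ⊗[k] cc.B0) (coverA cc A').R0 :=
  ((algebraMap (coverA cc A).R0 (coverA cc A').R0).comp
    (algebraMap (A ⊗[k] cc.B0) (coverA cc A).R0)).toAlgebra

/-- The diagonal `A ⊗[k] B1 → Γ(C_{A'}, X1)` of the square. -/
@[instance_reducible]
def algDiag1 : Algebra (A ⊗[k] cc.B1) (coverA cc A').R1 :=
  ((algebraMap (coverA cc A).R1 (coverA cc A').R1).comp
    (algebraMap (A ⊗[k] cc.B1) (coverA cc A).R1)).toAlgebra

/-- The diagonal `A ⊗[k] B01 → Γ(C_{A'}, X0 ⊓ X1)` of the square. -/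
@[instance_reducible]
def algDiag01 : Algebra (A ⊗[k] cc.B01) (coverA cc A').R01 :=
  ((algebraMap (coverA cc A).R01 (coverA cc A').R01).comp
    (algebraMap (A ⊗[k] cc.B01) (coverA cc A).R01)).toAlgebra

theorem tower0_up : letI := algDiag0 cc A A'
    IsScalarTower (A ⊗[k] cc.B0) (coverA cc A).R0 (coverA cc A').R0 :=
  letI := algDiag0 cc A A'
  IsScalarTower.of_algebraMap_eq (fun _ => rfl)

theorem tower1_up : letI := algDiag1 cc A A'
    IsScalarTower (A ⊗[k] cc.B1) (coverA cc A).R1 (coverA cc A').R1 :=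
  letI := algDiag1 cc A A'
  IsScalarTower.of_algebraMap_eq (fun _ => rfl)

theorem tower01_up : letI := algDiag01 cc A A'
    IsScalarTower (A ⊗[k] cc.B01) (coverA cc A).R01 (coverA cc A').R01 :=
  letI := algDiag01 cc A A'
  IsScalarTower.of_algebraMap_eq (fun _ => rfl)

theorem tower0_left : letI := algDiag0 cc A A'
    IsScalarTower (A ⊗[k] cc.B0) (A' ⊗[k] cc.B0) (coverA cc A').R0 :=
  letI := algDiag0 cc A A'
  IsScalarTower.of_algebraMap_eq (fun x => by
    show gb0 cc (IsScalarTower.toAlgHom k A A') (BridgeSheaf33.theta0B cc A x) =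
      BridgeSheaf33.theta0B cc A' (algebraMap (A ⊗[k] cc.B0) (A' ⊗[k] cc.B0) x)
    exact BridgeSheaf33.gb0_theta0B cc x)

theorem tower1_left : letI := algDiag1 cc A A'
    IsScalarTower (A ⊗[k] cc.B1) (A' ⊗[k] cc.B1) (coverA cc A').R1 :=
  letI := algDiag1 cc A A'
  IsScalarTower.of_algebraMap_eq (fun x => by
    show gb1 cc (IsScalarTower.toAlgHom k A A') (BridgeSheaf33.theta1B cc A x) =
      BridgeSheaf33.theta1B cc A' (algebraMap (A ⊗[k] cc.B1) (A' ⊗[k] cc.B1) x)
    exact BridgeSheaf33.gb1_theta1B cc x)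

theorem tower01_left : letI := algDiag01 cc A A'
    IsScalarTower (A ⊗[k] cc.B01) (A' ⊗[k] cc.B01) (coverA cc A').R01 :=
  letI := algDiag01 cc A A'
  IsScalarTower.of_algebraMap_eq (fun x => by
    show gb01 cc (IsScalarTower.toAlgHom k A A') (BridgeSheaf33.theta01B cc A x) =
      BridgeSheaf33.theta01B cc A' (algebraMap (A ⊗[k] cc.B01) (A' ⊗[k] cc.B01) x)
    exact BridgeSheaf33.gb01_theta01B cc x)

variable {cc A A'}

/-- **The `baseChange` field of the affine dictionary, modulo the sheaf-side input `hG`**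
(brick M4b): pull-back of sheaves along `C_{A'} ⟶ C_A` corresponds to chartwise base change of
two-chart modules over the tensor rings. -/
theorem corr_baseChange {M : (XA c A).Modules} {L : cc.QCA A} {L' : cc.QCA A'}
    (hG : ∀ (hq : (coverA cc A).IsQC M)
      (hq' : (coverA cc A').IsQC
        ((Scheme.Modules.pullback (bcs c (IsScalarTower.toAlgHom k A A'))).obj M)),
      Nonempty (LiftData ((coverA cc A).Gamma2 M hq)
        ((coverA cc A').Gamma2
          ((Scheme.Modules.pullback (bcs c (IsScalarTower.toAlgHom k A A'))).obj M) hq')))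
    (h : Corr cc A M L) (d : LiftData L L') :
    Corr cc A' ((Scheme.Modules.pullback (bcs c (IsScalarTower.toAlgHom k A A'))).obj M) L' := by
  obtain ⟨hM, hL, hq, ⟨dLG⟩⟩ := h
  have hM' : Scheme.Modules.IsInvertible
      ((Scheme.Modules.pullback (bcs c (IsScalarTower.toAlgHom k A A'))).obj M) := hM.pullback _
  have hq' : (coverA cc A').IsQC
      ((Scheme.Modules.pullback (bcs c (IsScalarTower.toAlgHom k A A'))).obj M) :=
    TwoCoverGammaLine40.isQC_of_isInvertible (coverA cc A') _ hM'
  obtain ⟨dGG⟩ := hG hq hq'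
  letI := algDiag0 cc A A'
  letI := algDiag1 cc A A'
  letI := algDiag01 cc A A'
  haveI := tower0_up cc A A'
  haveI := tower1_up cc A A'
  haveI := tower01_up cc A A'
  haveI := tower0_left cc A A'
  haveI := tower1_left cc A A'
  haveI := tower01_left cc A A'
  exact ⟨hM', LiftData.isLine d hL, hq',
    ⟨LiftData.ofSquare (hc0 cc A') (hc1 cc A') dLG dGG d⟩⟩

end Fermat.Agent.Jac.DictBC75
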